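import Mathlib
import Fermat.Agent.LT.H129.Comp
import Fermat.Agent.LT.T2.SpecTau
import Fermat.Agent.LT.T7.H826.Level2Q

/-!
# Row LT, tower T7, ASSET for the node `V2BasisQC341` (row 2445): the circle means of the tower T2
# (class T, real place of `ℚ`) ARE the circle means of level 2 over `ℚ` (helper19)

OFF-MAIN.  ADDITIVE, PROVED, UNCONDITIONAL.  New names only (suffix `19`, namespace
`Fermat.Agent.LT.T7.H19`).  Vocabulary: `T2/SpecTau.lean` (helper130, blob da599473),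
`T7/H826/Level2Q.lean` v1.1 (sha256 d2117efc), `H129/Comp.lean`; byte-identical copies.

The tower T2 in the class of T5 delivers joint eigenfunctions of the `τ`-twisted circle means

    T2.MeanEigRT τ ψ w m :  ∫₀^{2π} τ(k_θ)⁻¹ ψ(g k_θ a) dθ = m(t) ψ(g),
        `k_θ` of component `rotY θ` (rotation of angle `θ/2`), `a` of component `torus t`,

level 2 over `ℚ` (`L2Q`, helper826) uses

    L2Q.MeanEigR0 ψ w m :  ∫₀^{2π} ψ(g Y_θ) dθ = m(t) ψ(g),           `Y_θ ↦ rotY θ * torus t`,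
    L2Q.MeanEigR1 ψ w m :  ∫₀^{2π} e^{-iθ} ψ(g Y_θ) dθ = m(t) ψ(g),   `Y_θ ↦ rotC θ * torus t`.

* `meanEigR0_iff19 : T2.MeanEigRT T5.trivType ψ w m ↔ L2Q.MeanEigR0 ψ w m` (no hypothesis);
* `meanEigR1_iff19 : T2.MeanEigRT L2Q.wtOne ψ w m ↔ L2Q.MeanEigR1 ψ w m` for `ψ` of type
  `wtOne` at the real place (`ψ (g k) = wtOne k * ψ g` for `k ∈ SO(2)`): `rotY θ = rotC (-θ/2)`,
  `wtOne (k_θ) = e^{-iθ/2}`, and the half circle of T2 is the full circle of `L2Q` because the
  integrand `α ↦ e^{-iα} ψ(g Y_α)` has the period `π` (`rotC (α + π) = -rotC α`, `wtOne (-1) = -1`).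
  NO continuity of `θ ↦ Y_θ` is used (the change of variables and the periodicity hold for every
  function; the splitting of the interval is done by cases on the integrability);
* `meanEigQ_iff19 : T2.MeanEigRT n.type ψ w m ↔ n.MeanEig ψ w m` (both types, SAME eigenvalue
  function `m`), and the form for cusp functions `meanEigQ_iff_of_cusp19`.
-/

set_option autoImplicit false
set_option linter.unusedSectionVars false
set_option linter.unusedVariables false

open IsDedekindDomain NumberField MeasureTheory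
open Fermat.Agent.LT.H556 Fermat.Agent.LT.H556.A0 Fermat.Agent.LT.H670

noncomputable section

namespace Fermat.Agent.LT.T7.H19

open Fermat.Agent.LT.T7.L2Q

/-! ## 1. Components -/

section Comp

variable {K : Type} [Field K] [NumberField K]

/-- The component at `w`, as a ring homomorphism `𝔸_K → ℂ`. -/
def infRH19 (w : InfinitePlace K) : Adl K →+* ℂ :=
  (InfinitePlace.Completion.extensionEmbedding w).comp (H129.evI129 w)

theorem infComp_eq_map19 (w : InfinitePlace K) (g : G K) :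
    infComp w g = (g : Matrix (Fin 2) (Fin 2) (Adl K)).map (infRH19 w) := rfl

theorem infComp_mul19 (w : InfinitePlace K) (g h : G K) :
    infComp w (g * h) = infComp w g * infComp w h := by
  rw [infComp_eq_map19, infComp_eq_map19, infComp_eq_map19, Units.val_mul, Matrix.map_mul]

theorem infComp_one19 (w : InfinitePlace K) : infComp w (1 : G K) = 1 := by
  rw [infComp_eq_map19, Units.val_one, Matrix.map_one _ (map_zero _) (map_one _)]

theorem infComp_mul_inv19 (w : InfinitePlace K) (g : G K) :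
    infComp w g * infComp w g⁻¹ = 1 := by
  rw [← infComp_mul19, mul_inv_cancel, infComp_one19]

theorem infComp_inv_mul19 (w : InfinitePlace K) (g : G K) :
    infComp w g⁻¹ * infComp w g = 1 := by
  rw [← infComp_mul19, inv_mul_cancel, infComp_one19]

theorem isLocalAtInf_mul19 {w : InfinitePlace K} {g h : G K} (hg : IsLocalAtInf w g)
    (hh : IsLocalAtInf w h) : IsLocalAtInf w (g * h) := by
  refine ⟨fun w' hw' => (H129.trivAtInf_iff129 w' _).2 ?_,
    fun v => (H129.trivAtFin_iff129 v _).2 ?_⟩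
  · rw [map_mul, (H129.trivAtInf_iff129 w' g).1 (hg.1 w' hw'),
      (H129.trivAtInf_iff129 w' h).1 (hh.1 w' hw'), one_mul]
  · rw [map_mul, (H129.trivAtFin_iff129 v g).1 (hg.2 v),
      (H129.trivAtFin_iff129 v h).1 (hh.2 v), one_mul]

theorem isLocalAtInf_inv19 {w : InfinitePlace K} {g : G K} (hg : IsLocalAtInf w g) :
    IsLocalAtInf w g⁻¹ := by
  refine ⟨fun w' hw' => (H129.trivAtInf_iff129 w' _).2 ?_,
    fun v => (H129.trivAtFin_iff129 v _).2 ?_⟩
  · rw [map_inv, (H129.trivAtInf_iff129 w' g).1 (hg.1 w' hw'), inv_one]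
  · rw [map_inv, (H129.trivAtFin_iff129 v g).1 (hg.2 v), inv_one]

end Comp

/-! ## 2. The matrices -/

theorem rotY_zero19 : rotY 0 = 1 := by
  ext i j
  fin_cases i <;> fin_cases j <;> simp [rotY]

theorem rotC_zero19 : QOut.rotC 0 = 1 := by
  ext i j
  fin_cases i <;> fin_cases j <;> simp [QOut.rotC]

/-- `rotY θ` (the rotation of angle `θ/2`) is `k_{-θ/2}` in the convention of QOut. -/
theorem rotY_eq_rotC19 (θ : ℝ) : rotY θ = QOut.rotC (-(θ / 2)) := by
  ext i j
  fin_cases i <;> fin_cases j <;> simp [rotY, QOut.rotC, Real.cos_neg, Real.sin_neg]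

theorem rotC_eq_rotY19 (θ : ℝ) : QOut.rotC θ = rotY (-(2 * θ)) := by
  rw [rotY_eq_rotC19]
  congr 1
  ring

theorem rotC_add_pi19 (α : ℝ) : QOut.rotC (α + Real.pi) = -QOut.rotC α := by
  ext i j
  fin_cases i <;> fin_cases j <;>
    simp [QOut.rotC, Real.cos_add_pi, Real.sin_add_pi]

/-! ## 3. The integral over the half circle -/

/-- For a function of period `π`: `∫₀^{2π} h(-θ/2) dθ = ∫₀^{2π} h(α) dα`.  No integrability
hypothesis. -/
theorem integral_half_circle19 (h : ℝ → ℂ) (hper : Function.Periodic h Real.pi) :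
    (∫ θ in (0 : ℝ)..(2 * Real.pi), h (-(θ / 2))) = ∫ α in (0 : ℝ)..(2 * Real.pi), h α := by
  -- the left side is `2 ∫_{-π}^{0} h`
  have e1 : (∫ θ in (0 : ℝ)..(2 * Real.pi), h (-(θ / 2)))
      = (2 : ℝ) • ∫ α in (-Real.pi)..(0 : ℝ), h α := by
    have hc : (-(1 / 2) : ℝ) ≠ 0 := by norm_num
    have h0 := intervalIntegral.integral_comp_mul_left (a := (0 : ℝ)) (b := 2 * Real.pi)
      (fun α : ℝ => h α) hc
    have hfun : (fun θ : ℝ => h (-(θ / 2))) = fun θ : ℝ => h (-(1 / 2) * θ) := by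
      funext θ
      congr 1
      ring
    rw [hfun, h0]
    have hb : (-(1 / 2) : ℝ) * (2 * Real.pi) = -Real.pi := by ring
    rw [mul_zero, hb, intervalIntegral.integral_symm, smul_neg, ← neg_smul]
    congr 1
    norm_num
  -- `∫_{-π}^{0} h = ∫_0^π h`
  have e2 : (∫ α in (-Real.pi)..(0 : ℝ), h α) = ∫ α in (0 : ℝ)..Real.pi, h α := by
    have := hper.intervalIntegral_add_eq (-Real.pi) 0
    simp only [neg_add_cancel, zero_add] at this
    exact this
  -- `∫_π^{2π} h = ∫_0^π h`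
  have e3 : (∫ α in Real.pi..(2 * Real.pi), h α) = ∫ α in (0 : ℝ)..Real.pi, h α := by
    have := hper.intervalIntegral_add_eq Real.pi 0
    simp only [zero_add] at this
    rw [two_mul]
    exact this
  -- the right side is `2 ∫_0^π h`
  have e4 : (∫ α in (0 : ℝ)..(2 * Real.pi), h α) = (2 : ℝ) • ∫ α in (0 : ℝ)..Real.pi, h α := by
    by_cases hI : IntervalIntegrable h volume 0 Real.pi
    · have hI2 : IntervalIntegrable h volume Real.pi (2 * Real.pi) := by
        have h1 := hI.comp_sub_right Real.pi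
        have hfun : (fun x : ℝ => h (x - Real.pi)) = h := by
          funext x
          exact hper.sub_eq x
        rw [hfun, zero_add] at h1
        rw [two_mul]
        exact h1
      rw [← intervalIntegral.integral_add_adjacent_intervals hI hI2, e3, two_smul]
    · have hI2 : ¬ IntervalIntegrable h volume 0 (2 * Real.pi) := by
        intro hc
        apply hI
        refine hc.mono_set ?_
        have hpi := Real.pi_pos
        rw [Set.uIcc_of_le hpi.le, Set.uIcc_of_le (by linarith : (0 : ℝ) ≤ 2 * Real.pi)]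
        exact Set.Icc_subset_Icc le_rfl (by linarith)
      rw [intervalIntegral.integral_undef hI, intervalIntegral.integral_undef hI2, smul_zero]
  rw [e1, e2, e4]

/-! ## 4. Weight zero -/

/-- **The circle means of T2 for the trivial type are the circle means of weight `0` of level 2
over `ℚ`**, with the same eigenvalue function. -/
theorem meanEigR0_iff19 (ψ : G ℚ → ℂ) (w : InfinitePlace ℚ) (m : ℝ → ℂ) :
    T2.MeanEigRT (T5.trivType : G ℚ → ℂ) ψ w m ↔ MeanEigR0 ψ w m := by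
  constructor
  · intro hT t ht Y hY g
    have hY0 : infComp w (Y 0) = torus t := by
      rw [(hY 0).2, rotY_zero19, one_mul]
    have hk : T2.IsRotAt w (fun θ => Y θ * (Y 0)⁻¹) := by
      intro θ
      refine ⟨isLocalAtInf_mul19 (hY θ).1 (isLocalAtInf_inv19 (hY 0).1), ?_⟩
      show infComp w (Y θ * (Y 0)⁻¹) = rotY θ
      rw [infComp_mul19, (hY θ).2, ← hY0, mul_assoc, infComp_mul_inv19, mul_one]
    have ha : T2.IsTorusAt w t (Y 0) := ⟨(hY 0).1, hY0⟩
    have h := hT t ht (fun θ => Y θ * (Y 0)⁻¹) (Y 0) hk ha g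
    have hfun : (fun θ : ℝ => ((T5.trivType : G ℚ → ℂ) (Y θ * (Y 0)⁻¹))⁻¹
        * ψ (g * (Y θ * (Y 0)⁻¹) * Y 0)) = fun θ : ℝ => ψ (g * Y θ) := by
      funext θ
      have e : g * (Y θ * (Y 0)⁻¹) * Y 0 = g * Y θ := by group
      rw [e]
      show (1 : ℂ)⁻¹ * ψ (g * Y θ) = ψ (g * Y θ)
      rw [inv_one, one_mul]
    have h' : (∫ θ in (0 : ℝ)..(2 * Real.pi),
        ((T5.trivType : G ℚ → ℂ) (Y θ * (Y 0)⁻¹))⁻¹ * ψ (g * (Y θ * (Y 0)⁻¹) * Y 0))
        = m t * ψ g := h
    rw [hfun] at h'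
    exact h'
  · intro hL t ht k a hk ha g
    have hY : ∀ θ : ℝ, IsLocalAtInf w (k θ * a) ∧ infComp w (k θ * a) = rotY θ * torus t := by
      intro θ
      refine ⟨isLocalAtInf_mul19 (hk θ).1 ha.1, ?_⟩
      rw [infComp_mul19, (hk θ).2, ha.2]
    have h := hL t ht (fun θ => k θ * a) hY g
    show (∫ θ in (0 : ℝ)..(2 * Real.pi),
        ((T5.trivType : G ℚ → ℂ) (k θ))⁻¹ * ψ (g * k θ * a)) = m t * ψ g
    have hfun : (fun θ : ℝ => ((T5.trivType : G ℚ → ℂ) (k θ))⁻¹ * ψ (g * k θ * a))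
        = fun θ : ℝ => ψ (g * (k θ * a)) := by
      funext θ
      rw [mul_assoc]
      show (1 : ℂ)⁻¹ * ψ (g * (k θ * a)) = ψ (g * (k θ * a))
      rw [inv_one, one_mul]
    rw [hfun]
    exact h

/-! ## 5. Weight one -/

/-- `wtOne` on an element of component `rotY θ` at the real place. -/
theorem wtOne_rotY19 {w : InfinitePlace ℚ} {k : G ℚ} {θ : ℝ} (h : infComp w k = rotY θ) :
    wtOne k = Complex.exp (Complex.I * (((-(θ / 2) : ℝ)) : ℂ)) := by
  refine wtOne_rotC ?_
  rw [Subsingleton.elim Rat.infinitePlace w, h, rotY_eq_rotC19]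

/-- An element of component `-1` at the real place is in `SO(2)` and `wtOne` is `-1` on it. -/
theorem wtOne_neg_one19 {w : InfinitePlace ℚ} {z : G ℚ} (hz : infComp w z = -1) :
    wtOne z = -1 := by
  have hz' : infComp Rat.infinitePlace z = -1 := by
    rw [Subsingleton.elim Rat.infinitePlace w, hz]
  show infComp Rat.infinitePlace z 0 0 + Complex.I * infComp Rat.infinitePlace z 0 1 = -1
  rw [hz']
  simp

theorem isArchCompact_neg_one19 {w : InfinitePlace ℚ} {z : G ℚ} (hl : IsLocalAtInf w z)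
    (hz : infComp w z = -1) : IsArchCompact w z := by
  refine ⟨hl, ?_, fun _ => ?_⟩
  · rw [hz]
    simp
  · rw [hz]
    simp [Matrix.det_neg]

/-- The integrand of the circle mean of weight one has the period `π`. -/
theorem periodic_wtOne19 {ψ : G ℚ → ℂ} {w : InfinitePlace ℚ}
    (hψ : ∀ k : G ℚ, IsArchCompact w k → ∀ g : G ℚ, ψ (g * k) = wtOne k * ψ g)
    {t : ℝ} {Y : ℝ → G ℚ}
    (hY : ∀ θ : ℝ, IsLocalAtInf w (Y θ) ∧ infComp w (Y θ) = QOut.rotC θ * torus t) (g : G ℚ) :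
    Function.Periodic
      (fun α : ℝ => Complex.exp (-(Complex.I * ((α : ℝ) : ℂ))) * ψ (g * Y α)) Real.pi := by
  intro α
  -- `Y (α + π) = Y α * z` with `z` of component `-1`
  have hzl : IsLocalAtInf w ((Y α)⁻¹ * Y (α + Real.pi)) :=
    isLocalAtInf_mul19 (isLocalAtInf_inv19 (hY α).1) (hY (α + Real.pi)).1
  have hzc : infComp w ((Y α)⁻¹ * Y (α + Real.pi)) = -1 := by
    rw [infComp_mul19, (hY (α + Real.pi)).2, rotC_add_pi19, neg_mul, ← (hY α).2, mul_neg,
      infComp_inv_mul19]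
  have hYz : g * Y (α + Real.pi) = g * Y α * ((Y α)⁻¹ * Y (α + Real.pi)) := by group
  have hexp : Complex.exp (-(Complex.I * (((α + Real.pi : ℝ)) : ℂ)))
      = -Complex.exp (-(Complex.I * ((α : ℝ) : ℂ))) := by
    have e : -(Complex.I * (((α + Real.pi : ℝ)) : ℂ))
        = -(Complex.I * ((α : ℝ) : ℂ)) + -((Real.pi : ℂ) * Complex.I) := by
      push_cast
      ring
    rw [e, Complex.exp_add, Complex.exp_neg ((Real.pi : ℂ) * Complex.I), Complex.exp_pi_mul_I]
    norm_num
  show Complex.exp (-(Complex.I * (((α + Real.pi : ℝ)) : ℂ))) * ψ (g * Y (α + Real.pi))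
    = Complex.exp (-(Complex.I * ((α : ℝ) : ℂ))) * ψ (g * Y α)
  rw [hYz, hψ _ (isArchCompact_neg_one19 hzl hzc) (g * Y α), wtOne_neg_one19 hzc, hexp]
  ring

/-- **The circle means of T2 for the type `wtOne` are the circle means of weight one of level 2
over `ℚ`**, with the same eigenvalue function (for a function of type `wtOne`). -/
theorem meanEigR1_iff19 (ψ : G ℚ → ℂ) (w : InfinitePlace ℚ) (m : ℝ → ℂ)
    (hψ : ∀ k : G ℚ, IsArchCompact w k → ∀ g : G ℚ, ψ (g * k) = wtOne k * ψ g) :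
    T2.MeanEigRT wtOne ψ w m ↔ MeanEigR1 ψ w m := by
  constructor
  · intro hT t ht Y hY g
    have hY0 : infComp w (Y 0) = torus t := by
      rw [(hY 0).2, rotC_zero19, one_mul]
    have hk : T2.IsRotAt w (fun θ => Y (-(θ / 2)) * (Y 0)⁻¹) := by
      intro θ
      refine ⟨isLocalAtInf_mul19 (hY _).1 (isLocalAtInf_inv19 (hY 0).1), ?_⟩
      show infComp w (Y (-(θ / 2)) * (Y 0)⁻¹) = rotY θ
      rw [infComp_mul19, (hY _).2, ← hY0, mul_assoc, infComp_mul_inv19, mul_one,
        rotY_eq_rotC19]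
    have ha : T2.IsTorusAt w t (Y 0) := ⟨(hY 0).1, hY0⟩
    have h : (∫ θ in (0 : ℝ)..(2 * Real.pi),
        (wtOne (Y (-(θ / 2)) * (Y 0)⁻¹))⁻¹ * ψ (g * (Y (-(θ / 2)) * (Y 0)⁻¹) * Y 0))
        = m t * ψ g := hT t ht (fun θ => Y (-(θ / 2)) * (Y 0)⁻¹) (Y 0) hk ha g
    have hfun : (fun θ : ℝ => (wtOne (Y (-(θ / 2)) * (Y 0)⁻¹))⁻¹
        * ψ (g * (Y (-(θ / 2)) * (Y 0)⁻¹) * Y 0))
        = fun θ : ℝ => (fun α : ℝ => Complex.exp (-(Complex.I * ((α : ℝ) : ℂ))) * ψ (g * Y α))
            (-(θ / 2)) := by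
      funext θ
      have e : g * (Y (-(θ / 2)) * (Y 0)⁻¹) * Y 0 = g * Y (-(θ / 2)) := by group
      rw [e, wtOne_rotY19 (hk θ).2, ← Complex.exp_neg]
    rw [hfun, integral_half_circle19 _ (periodic_wtOne19 hψ hY g)] at h
    exact h
  · intro hL t ht k a hk ha g
    have hY : ∀ θ : ℝ, IsLocalAtInf w (k (-(2 * θ)) * a)
        ∧ infComp w (k (-(2 * θ)) * a) = QOut.rotC θ * torus t := by
      intro θ
      refine ⟨isLocalAtInf_mul19 (hk _).1 ha.1, ?_⟩
      rw [infComp_mul19, (hk _).2, ha.2, rotC_eq_rotY19]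
    have h : (∫ θ in (0 : ℝ)..(2 * Real.pi),
        Complex.exp (-(Complex.I * ((θ : ℝ) : ℂ))) * ψ (g * (k (-(2 * θ)) * a))) = m t * ψ g :=
      hL t ht (fun θ => k (-(2 * θ)) * a) hY g
    show (∫ θ in (0 : ℝ)..(2 * Real.pi), (wtOne (k θ))⁻¹ * ψ (g * k θ * a)) = m t * ψ g
    have hfun : (fun θ : ℝ => (wtOne (k θ))⁻¹ * ψ (g * k θ * a))
        = fun θ : ℝ => (fun α : ℝ => Complex.exp (-(Complex.I * ((α : ℝ) : ℂ)))
            * ψ (g * (k (-(2 * α)) * a))) (-(θ / 2)) := by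
      funext θ
      have e : -(2 * -(θ / 2)) = θ := by ring
      show (wtOne (k θ))⁻¹ * ψ (g * k θ * a)
        = Complex.exp (-(Complex.I * (((-(θ / 2) : ℝ)) : ℂ))) * ψ (g * (k (-(2 * -(θ / 2))) * a))
      rw [e, wtOne_rotY19 (hk θ).2, ← Complex.exp_neg, mul_assoc]
    rw [hfun, integral_half_circle19 _ (periodic_wtOne19 hψ hY g)]
    exact h

/-! ## 6. Both types -/

/-- **ADAPTER T2 ↔ L2Q at the real place of `ℚ`**: for a function of type `n.type` the
`n.type`-twisted circle means of the tower T2 and the circle means of type `n` of level 2 are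
the same operators; the eigenvalue functions are EQUAL. -/
theorem meanEigQ_iff19 (n : QWt) (ψ : G ℚ → ℂ) (w : InfinitePlace ℚ) (m : ℝ → ℂ)
    (hψ : ∀ k : G ℚ, IsArchCompact w k → ∀ g : G ℚ, ψ (g * k) = n.type k * ψ g) :
    T2.MeanEigRT n.type ψ w m ↔ n.MeanEig ψ w m := by
  cases n with
  | w0 => exact meanEigR0_iff19 ψ w m
  | w1 => exact meanEigR1_iff19 ψ w m hψ

/-- The adapter for the cusp functions of type `n`. -/
theorem meanEigQ_iff_of_cusp19 {n : QWt} {𝔫 : Ideal (𝓞 ℚ)} {r : G ℚ} {ψ : G ℚ → ℂ}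
    (h : T5.IsCuspFn 𝔫 n.type r ψ) (w : InfinitePlace ℚ) (m : ℝ → ℂ) :
    T2.MeanEigRT n.type ψ w m ↔ n.MeanEig ψ w m :=
  meanEigQ_iff19 n ψ w m (fun k hk g => h.aut.arch_compact w k hk g)

/-- The adapter for the class `T2.IsCuspT` of the tower T2. -/
theorem meanEigQ_iff_of_cuspT19 {n : QWt} {𝔫 : Ideal (𝓞 ℚ)} {r : G ℚ} {ψ : G ℚ → ℂ}
    (h : T2.IsCuspT 𝔫 n.type r ψ) (w : InfinitePlace ℚ) (m : ℝ → ℂ) :
    T2.MeanEigRT n.type ψ w m ↔ n.MeanEig ψ w m :=
  meanEigQ_iff19 n ψ w m (fun k hk g => h.aut.arch_compact w k hk g)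

end Fermat.Agent.LT.T7.H19

end
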