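import Mathlib
import Fermat.Agent.LT.T8.H864.Local
import Fermat.Agent.LT.T7.H19.MeanEigQ

/-!
# Row LT, tower T7, ASSET for the node `V2BasisQC341` (row 2445): the eigenvalues of the circle
# means of a bounded eigenfunction over `ℚ` have norm `≤ 2π` (helper19)

OFF-MAIN.  ADDITIVE, PROVED, UNCONDITIONAL.  New names only (suffix `19`, namespace
`Fermat.Agent.LT.T7.H19`).  This is the archimedean half of `SDQ140.IsUnitOutQ`
(`‖c.m w t‖ ≤ 2π`; the other half `(c.m w t).im = 0` is the field `real_m` of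
`T2.IsCuspBasisT`).

* `exists_local_real19`: at a real place every real invertible matrix is the component of a local
  element (`T8.H864.locInf` and `ringEquivRealOfIsReal`);
* `exists_circleR0_19`, `exists_circleR1_19`: the families `Y_θ` of `L2Q.MeanEigR0` /
  `L2Q.MeanEigR1` EXIST (so the eigen-equations are not vacuous);
* `norm_meanEigR0_le19`, `norm_meanEigR1_le19`, **`norm_meanEigQ_le19`**: a bounded function
  `ψ ≠ 0` with `n.MeanEig ψ w m` has `‖m t‖ ≤ 2π` for `t > 0`;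
* `norm_meanEigRT_le19`: the same for the `n.type`-twisted circle means of the tower T2.
-/

set_option autoImplicit false
set_option linter.unusedSectionVars false
set_option linter.unusedVariables false

open IsDedekindDomain NumberField MeasureTheory
open Fermat.Agent.LT.H556 Fermat.Agent.LT.H556.A0 Fermat.Agent.LT.H670

noncomputable section

namespace Fermat.Agent.LT.T7.H19

open Fermat.Agent.LT.T7.L2Q

/-! ## 1. Local elements at a real place -/

section Local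

variable {K : Type} [Field K] [NumberField K]

/-- At a real place every invertible real matrix is the component of a local element. -/
theorem exists_local_real19 (w : InfinitePlace K) (hw : w.IsReal) (M : GL (Fin 2) ℝ) :
    ∃ y : G K, IsLocalAtInf w y ∧
      infComp w y = (M : Matrix (Fin 2) (Fin 2) ℝ).map (fun x : ℝ => (x : ℂ)) := by
  set e := InfinitePlace.Completion.ringEquivRealOfIsReal hw with he
  refine ⟨T8.H864.locInf w (Matrix.GeneralLinearGroup.map e.symm.toRingHom M),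
    T8.H864.isLocalAtInf_locInf w _, ?_⟩
  rw [T8.H864.infComp_locInf_self]
  ext i j
  show InfinitePlace.Completion.extensionEmbedding w (e.symm (M i j)) = ((M i j : ℝ) : ℂ)
  rw [← InfinitePlace.Completion.extensionEmbeddingOfIsReal_apply hw]
  congr 1
  exact e.apply_symm_apply (M i j)

end Local

/-! ## 2. The circles exist -/

/-- The real rotation of angle `α`, convention of QOut. -/
def rotM19 (α : ℝ) : Matrix (Fin 2) (Fin 2) ℝ :=
  !![Real.cos α, Real.sin α; -Real.sin α, Real.cos α]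

/-- The real torus element. -/
def torM19 (t : ℝ) : Matrix (Fin 2) (Fin 2) ℝ :=
  !![Real.exp (t / 2), 0; 0, Real.exp (-(t / 2))]

theorem det_rotM19 (α : ℝ) : (rotM19 α).det = 1 := by
  show (!![Real.cos α, Real.sin α; -Real.sin α, Real.cos α] : Matrix (Fin 2) (Fin 2) ℝ).det = 1
  rw [Matrix.det_fin_two_of]
  have := Real.cos_sq_add_sin_sq α
  nlinarith

theorem det_torM19 (t : ℝ) : (torM19 t).det = 1 := by
  show (!![Real.exp (t / 2), 0; 0, Real.exp (-(t / 2))] : Matrix (Fin 2) (Fin 2) ℝ).det = 1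
  rw [Matrix.det_fin_two_of, mul_zero, sub_zero, ← Real.exp_add, add_neg_cancel, Real.exp_zero]

theorem rotM_map19 (α : ℝ) : (rotM19 α).map (fun x : ℝ => (x : ℂ)) = QOut.rotC α := by
  ext i j
  fin_cases i <;> fin_cases j <;> simp [rotM19, QOut.rotC]

theorem torM_map19 (t : ℝ) : (torM19 t).map (fun x : ℝ => (x : ℂ)) = torus t := by
  ext i j
  fin_cases i <;> fin_cases j <;> simp [torM19, torus]

theorem mul_map19 (A B : Matrix (Fin 2) (Fin 2) ℝ) :
    (A * B).map (fun x : ℝ => (x : ℂ))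
      = A.map (fun x : ℝ => (x : ℂ)) * B.map (fun x : ℝ => (x : ℂ)) :=
  Matrix.map_mul (f := Complex.ofRealHom)

/-- The circle of radius `t` in the convention of QOut exists. -/
theorem exists_circleR1_19 (w : InfinitePlace ℚ) (t : ℝ) :
    ∃ Y : ℝ → G ℚ, ∀ θ : ℝ, IsLocalAtInf w (Y θ) ∧ infComp w (Y θ) = QOut.rotC θ * torus t := by
  have hw : w.IsReal := by
    rw [Subsingleton.elim w Rat.infinitePlace]
    exact Rat.isReal_infinitePlace
  have hdet : ∀ θ : ℝ, (rotM19 θ * torM19 t).det ≠ 0 := by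
    intro θ
    rw [Matrix.det_mul, det_rotM19, det_torM19, one_mul]
    exact one_ne_zero
  choose Y hY using fun θ : ℝ =>
    exists_local_real19 w hw (Matrix.GeneralLinearGroup.mkOfDetNeZero _ (hdet θ))
  refine ⟨Y, fun θ => ⟨(hY θ).1, ?_⟩⟩
  rw [(hY θ).2]
  show (rotM19 θ * torM19 t).map (fun x : ℝ => (x : ℂ)) = _
  rw [mul_map19, rotM_map19, torM_map19]

/-- The circle of radius `t` in the convention of A0 exists. -/
theorem exists_circleR0_19 (w : InfinitePlace ℚ) (t : ℝ) :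
    ∃ Y : ℝ → G ℚ, ∀ θ : ℝ, IsLocalAtInf w (Y θ) ∧ infComp w (Y θ) = rotY θ * torus t := by
  obtain ⟨Y, hY⟩ := exists_circleR1_19 w t
  refine ⟨fun θ => Y (-(θ / 2)), fun θ => ⟨(hY _).1, ?_⟩⟩
  rw [(hY _).2, rotY_eq_rotC19]

/-! ## 3. The bound -/

/-- A bounded function `ψ ≠ 0` with `‖c‖ ‖ψ g‖ ≤ 2π C` for every bound `C` of `ψ` has
`‖c‖ ≤ 2π`. -/
theorem norm_le_of_mean19 {X : Type} (ψ : X → ℂ) (hb : ∃ C : ℝ, ∀ g : X, ‖ψ g‖ ≤ C)
    (hne : ∃ y : X, ψ y ≠ 0) (c : ℂ)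
    (h : ∀ C : ℝ, (∀ g : X, ‖ψ g‖ ≤ C) → ∀ g : X, ‖c‖ * ‖ψ g‖ ≤ 2 * Real.pi * C) :
    ‖c‖ ≤ 2 * Real.pi := by
  obtain ⟨C, hC⟩ := hb
  obtain ⟨y, hy⟩ := hne
  have hbdd : BddAbove (Set.range fun g : X => ‖ψ g‖) := ⟨C, by rintro _ ⟨g, rfl⟩; exact hC g⟩
  set S : ℝ := ⨆ g : X, ‖ψ g‖ with hS
  have hle : ∀ g : X, ‖ψ g‖ ≤ S := fun g => le_ciSup hbdd g
  have hSpos : 0 < S := lt_of_lt_of_le (norm_pos_iff.2 hy) (hle y)
  by_contra hcon
  rw [not_le] at hcon
  have hcpos : 0 < ‖c‖ := lt_trans (by positivity) hcon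
  have h1 : ∀ g : X, ‖ψ g‖ ≤ 2 * Real.pi * S / ‖c‖ := by
    intro g
    rw [le_div_iff₀ hcpos, mul_comm]
    exact h S hle g
  have : Nonempty X := ⟨y⟩
  have h2 : S ≤ 2 * Real.pi * S / ‖c‖ := ciSup_le h1
  rw [le_div_iff₀ hcpos] at h2
  have h3 : S * ‖c‖ ≤ S * (2 * Real.pi) := by linarith
  have h4 := le_of_mul_le_mul_left h3 hSpos
  linarith

/-- **Weight zero**: the eigenvalues of the circle means of a bounded nonzero function have norm
`≤ 2π`. -/
theorem norm_meanEigR0_le19 {ψ : G ℚ → ℂ} (hb : ∃ C : ℝ, ∀ g : G ℚ, ‖ψ g‖ ≤ C)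
    (hne : ∃ y : G ℚ, ψ y ≠ 0) {w : InfinitePlace ℚ} {m : ℝ → ℂ} (hm : MeanEigR0 ψ w m)
    {t : ℝ} (ht : 0 < t) : ‖m t‖ ≤ 2 * Real.pi := by
  obtain ⟨Y, hY⟩ := exists_circleR0_19 w t
  refine norm_le_of_mean19 ψ hb hne (m t) (fun C hC g => ?_)
  rw [← norm_mul, ← hm t ht Y hY g]
  have h := intervalIntegral.norm_integral_le_of_norm_le_const (a := (0 : ℝ))
    (b := 2 * Real.pi) (f := fun θ : ℝ => ψ (g * Y θ)) (C := C) (fun θ _ => hC _)
  have habs : |2 * Real.pi - 0| = 2 * Real.pi := by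
    rw [sub_zero, abs_of_pos (by positivity)]
  rw [habs] at h
  linarith

/-- **Weight one**: the eigenvalues of the circle means of a bounded nonzero function have norm
`≤ 2π`. -/
theorem norm_meanEigR1_le19 {ψ : G ℚ → ℂ} (hb : ∃ C : ℝ, ∀ g : G ℚ, ‖ψ g‖ ≤ C)
    (hne : ∃ y : G ℚ, ψ y ≠ 0) {w : InfinitePlace ℚ} {m : ℝ → ℂ} (hm : MeanEigR1 ψ w m)
    {t : ℝ} (ht : 0 < t) : ‖m t‖ ≤ 2 * Real.pi := by
  obtain ⟨Y, hY⟩ := exists_circleR1_19 w t
  refine norm_le_of_mean19 ψ hb hne (m t) (fun C hC g => ?_)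
  rw [← norm_mul, ← hm t ht Y hY g]
  have h := intervalIntegral.norm_integral_le_of_norm_le_const (a := (0 : ℝ))
    (b := 2 * Real.pi)
    (f := fun θ : ℝ => Complex.exp (-(Complex.I * ((θ : ℝ) : ℂ))) * ψ (g * Y θ)) (C := C)
    (fun θ _ => by
      have e : -(Complex.I * ((θ : ℝ) : ℂ)) = ((-θ : ℝ) : ℂ) * Complex.I := by
        push_cast
        ring
      rw [norm_mul, e, Complex.norm_exp_ofReal_mul_I, one_mul]
      exact hC _)
  have habs : |2 * Real.pi - 0| = 2 * Real.pi := by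
    rw [sub_zero, abs_of_pos (by positivity)]
  rw [habs] at h
  linarith

/-- **THE BOUND OF `IsUnitOutQ` AT THE REAL PLACE**, both types. -/
theorem norm_meanEigQ_le19 (n : QWt) {ψ : G ℚ → ℂ} (hb : ∃ C : ℝ, ∀ g : G ℚ, ‖ψ g‖ ≤ C)
    (hne : ∃ y : G ℚ, ψ y ≠ 0) {w : InfinitePlace ℚ} {m : ℝ → ℂ} (hm : n.MeanEig ψ w m)
    {t : ℝ} (ht : 0 < t) : ‖m t‖ ≤ 2 * Real.pi := by
  cases n with
  | w0 => exact norm_meanEigR0_le19 hb hne hm ht
  | w1 => exact norm_meanEigR1_le19 hb hne hm ht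

/-- The bound for the `n.type`-twisted circle means of the tower T2 (cusp functions of the class
`T2.IsCuspT`). -/
theorem norm_meanEigRT_le19 {n : QWt} {𝔫 : Ideal (𝓞 ℚ)} {r : G ℚ} {ψ : G ℚ → ℂ}
    (h : T2.IsCuspT 𝔫 n.type r ψ) (hne : ∃ y : G ℚ, ψ y ≠ 0) {w : InfinitePlace ℚ}
    {m : ℝ → ℂ} (hm : T2.MeanEigRT n.type ψ w m) {t : ℝ} (ht : 0 < t) :
    ‖m t‖ ≤ 2 * Real.pi :=
  norm_meanEigQ_le19 n h.aut.bdd hne ((meanEigQ_iff_of_cuspT19 h w m).1 hm) ht

end Fermat.Agent.LT.T7.H19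

end
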